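import Fermat.Agent.S24.Ana.Defs

/-!
# S24, component B2: products of `t`-expansions (aux file for `Ana/TExp.lean`).
-/

set_option autoImplicit false

noncomputable section

namespace Fermat.Agent.S24

open UpperHalfPlane

namespace TExpMulAux

/-- The fibre sum computing a coefficient of a product of Laurent series: only finitely many
terms are nonzero, and they add up to the Hahn series coefficient. -/
theorem hasSum_coeff_mul_fibre (G G' : LaurentSeries ℂ) (n : ℤ) :
    HasSum (fun i : ℤ => G.coeff i * G'.coeff (n - i)) ((G * G').coeff n) := by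
  classical
  rw [HahnSeries.coeff_mul]
  have himg : ∑ ij ∈ Finset.antidiagonal G.isPWO_support G'.isPWO_support n,
        G.coeff ij.1 * G'.coeff ij.2
      = ∑ i ∈ (Finset.antidiagonal G.isPWO_support G'.isPWO_support n).image Prod.fst,
        G.coeff i * G'.coeff (n - i) := by
    rw [Finset.sum_image]
    · refine Finset.sum_congr rfl fun ij hij => ?_
      have h2 : ij.1 + ij.2 = n := (Finset.mem_antidiagonal.mp hij).2.2
      have h3 : n - ij.1 = ij.2 := by omega
      rw [h3]
    · intro a ha b hb hab
      have h1 : a.1 + a.2 = n := (Finset.mem_antidiagonal.mp ha).2.2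
      have h2 : b.1 + b.2 = n := (Finset.mem_antidiagonal.mp hb).2.2
      have hab' : a.1 = b.1 := hab
      refine Prod.ext hab' ?_
      omega
  rw [himg]
  refine hasSum_sum_of_ne_finset_zero fun i hi => ?_
  by_contra hne
  apply hi
  rw [Finset.mem_image]
  refine ⟨(i, n - i), ?_, rfl⟩
  rw [Finset.mem_antidiagonal]
  refine ⟨?_, ?_, ?_⟩
  · intro h0
    exact hne (by rw [show G.coeff i = 0 from h0, zero_mul])
  · intro h0
    exact hne (by rw [show G'.coeff (n - i) = 0 from h0, mul_zero])
  · show i + (n - i) = n
    omega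

/-- The reindexing equivalence `(n, i) ↦ (i, n - i)` of `ℤ × ℤ`. -/
def shearEquiv : ℤ × ℤ ≃ ℤ × ℤ where
  toFun q := (q.2, q.1 - q.2)
  invFun p := (p.1 + p.2, p.1)
  left_inv q := by
    refine Prod.ext ?_ rfl
    show q.2 + (q.1 - q.2) = q.1
    omega
  right_inv p := by
    refine Prod.ext rfl ?_
    show p.1 + p.2 - p.1 = p.2
    omega

end TExpMulAux

/-- Cauchy product of two convergent Laurent expansions (supports bounded below) at a point
`t : ℂ`, `t ≠ 0`: the product series converges to the product of the sums. -/
theorem hasSum_laurent_mul {G G' : LaurentSeries ℂ} {t s s' : ℂ} (ht : t ≠ 0)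
    (h : HasSum (fun n : ℤ => G.coeff n * t ^ n) s)
    (h' : HasSum (fun n : ℤ => G'.coeff n * t ^ n) s') :
    HasSum (fun n : ℤ => (G * G').coeff n * t ^ n) (s * s') := by
  -- the product family on `ℤ × ℤ` is (absolutely) summable with sum `s * s'`
  have hn : Summable (fun n : ℤ => ‖G.coeff n * t ^ n‖) := h.summable.norm
  have hn' : Summable (fun n : ℤ => ‖G'.coeff n * t ^ n‖) := h'.summable.norm
  have hsum := summable_mul_of_summable_norm hn hn'
  have hprod := HasSum.mul h h' hsum
  -- reindex by `(n, i) ↦ (i, n - i)`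
  have hre := (Equiv.hasSum_iff TExpMulAux.shearEquiv).mpr hprod
  -- sum over the fibres of the first coordinate
  refine HasSum.prod_fiberwise hre fun n => ?_
  have hfib := (TExpMulAux.hasSum_coeff_mul_fibre G G' n).mul_right (t ^ n)
  have hfun : (fun i : ℤ => G.coeff i * G'.coeff (n - i) * t ^ n)
      = fun i : ℤ => (G.coeff i * t ^ i) * (G'.coeff (n - i) * t ^ (n - i)) := by
    funext i
    have ht' : t ^ n = t ^ i * t ^ (n - i) := by
      rw [← zpow_add₀ ht]
      congr 1
      omega
    rw [ht']
    ring
  rw [hfun] at hfib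
  exact hfib

end Fermat.Agent.S24
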