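import Fermat.Agent.S24.Ana.Defs

/-!
# S24, component B2: uniqueness of `t`-expansions (aux file for `Ana/TExp.lean`).
-/

set_option autoImplicit false

noncomputable section

namespace Fermat.Agent.S24

open UpperHalfPlane

namespace UniqueAux

/-- A power series (in nonnegative powers of `t`) which sums to `0` at every point of the
punctured unit disc has vanishing constant coefficient. -/
theorem constCoeff_eq_zero_of_hasSum_zero (a : ℕ → ℂ)
    (H : ∀ t : ℂ, t ≠ 0 → ‖t‖ < 1 → HasSum (fun k : ℕ => a k * t ^ k) 0) : a 0 = 0 := by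
  -- absolute summability at `t = 1/2`
  have h2 : HasSum (fun k : ℕ => a k * (1 / 2 : ℂ) ^ k) 0 :=
    H (1 / 2) (by norm_num) (by norm_num)
  have hs : Summable (fun k : ℕ => ‖a k * (1 / 2 : ℂ) ^ k‖) := summable_norm_iff.2 h2.summable
  have hs1 : Summable (fun k : ℕ => ‖a (k + 1) * (1 / 2 : ℂ) ^ (k + 1)‖) :=
    (summable_nat_add_iff 1).2 hs
  set M : ℝ := ∑' k : ℕ, ‖a (k + 1) * (1 / 2 : ℂ) ^ (k + 1)‖ with hM
  have hM0 : 0 ≤ M := tsum_nonneg (fun k => norm_nonneg _)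
  have key : ∀ s : ℝ, 0 < s → s ≤ 1 / 2 → ‖a 0‖ ≤ 2 * s * M := by
    intro s hs0 hs2
    have hsum := H (s : ℂ) (by exact_mod_cast hs0.ne') (by
      rw [Complex.norm_real, Real.norm_of_nonneg hs0.le]
      linarith)
    have hshift : HasSum (fun k : ℕ => a (k + 1) * (s : ℂ) ^ (k + 1))
        (0 - ∑ i ∈ Finset.range 1, a i * (s : ℂ) ^ i) := (hasSum_nat_add_iff' 1).2 hsum
    have hval : (0 - ∑ i ∈ Finset.range 1, a i * (s : ℂ) ^ i) = - a 0 := by simp
    rw [hval] at hshift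
    have hbound : ∀ k : ℕ, ‖a (k + 1) * (s : ℂ) ^ (k + 1)‖
        ≤ 2 * s * ‖a (k + 1) * (1 / 2 : ℂ) ^ (k + 1)‖ := by
      intro k
      rw [norm_mul, norm_mul, norm_pow, norm_pow, Complex.norm_real, Real.norm_of_nonneg hs0.le]
      have h12 : ‖(1 / 2 : ℂ)‖ = 1 / 2 := by norm_num
      rw [h12]
      have hpow : s ^ k ≤ (1 / 2 : ℝ) ^ k := pow_le_pow_left₀ hs0.le hs2 k
      have hpow' : s ^ (k + 1) ≤ 2 * s * (1 / 2 : ℝ) ^ (k + 1) := by
        rw [pow_succ, pow_succ]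
        nlinarith [mul_le_mul_of_nonneg_right hpow hs0.le]
      calc ‖a (k + 1)‖ * s ^ (k + 1) ≤ ‖a (k + 1)‖ * (2 * s * (1 / 2 : ℝ) ^ (k + 1)) := by
            gcongr
        _ = 2 * s * (‖a (k + 1)‖ * (1 / 2 : ℝ) ^ (k + 1)) := by ring
    have hle := hshift.norm_le_of_bounded (hs1.hasSum.mul_left (2 * s)) hbound
    rwa [norm_neg] at hle
  by_contra h0
  have hpos : 0 < ‖a 0‖ := norm_pos_iff.2 h0
  have hM1 : 0 < M + 1 := by linarith
  have hs0 : 0 < min (1 / 2 : ℝ) (‖a 0‖ / (4 * (M + 1))) := lt_min (by norm_num) (by positivity)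
  have hle := key _ hs0 (min_le_left _ _)
  have hs3 : min (1 / 2 : ℝ) (‖a 0‖ / (4 * (M + 1))) ≤ ‖a 0‖ / (4 * (M + 1)) := min_le_right _ _
  have h4 : 2 * (‖a 0‖ / (4 * (M + 1))) * M ≤ ‖a 0‖ / 2 := by
    have e : 2 * (‖a 0‖ / (4 * (M + 1))) * M = (‖a 0‖ * (2 * M)) / (4 * (M + 1)) := by ring
    rw [e, div_le_div_iff₀ (by positivity) (by norm_num)]
    nlinarith
  have h5 : 2 * min (1 / 2 : ℝ) (‖a 0‖ / (4 * (M + 1))) * M
      ≤ 2 * (‖a 0‖ / (4 * (M + 1))) * M := by gcongr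
  linarith

end UniqueAux

/-- `t = e^{2πiz/N}` takes every value of the punctured open unit disc. -/
theorem exists_tOf_eq (N : ℕ) [NeZero N] (t : ℂ) (h0 : t ≠ 0) (h1 : ‖t‖ < 1) :
    ∃ z : ℍ, tOf N z = t := by
  have hNpos : (0 : ℝ) < N := Nat.cast_pos.2 (Nat.pos_of_ne_zero (NeZero.ne N))
  have hpi : (0 : ℝ) < 2 * Real.pi := by positivity
  have hcpos : (0 : ℝ) < N / (2 * Real.pi) := div_pos hNpos hpi
  have hlog : Real.log ‖t‖ < 0 := Real.log_neg (norm_pos_iff.2 h0) h1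
  have him : 0 < (((N / (2 * Real.pi) : ℝ) : ℂ) * (-Complex.I * Complex.log t)).im := by
    rw [Complex.im_ofReal_mul]
    have him' : (-Complex.I * Complex.log t).im = -Real.log ‖t‖ := by
      rw [neg_mul, Complex.neg_im, Complex.I_mul_im, Complex.log_re]
    rw [him']
    exact mul_pos hcpos (neg_pos.2 hlog)
  refine ⟨⟨((N / (2 * Real.pi) : ℝ) : ℂ) * (-Complex.I * Complex.log t), him⟩, ?_⟩
  have harg : 2 * (Real.pi : ℂ) * Complex.I *
      ((⟨((N / (2 * Real.pi) : ℝ) : ℂ) * (-Complex.I * Complex.log t), him⟩ : ℍ) : ℂ) / N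
      = Complex.log t := by
    change 2 * (Real.pi : ℂ) * Complex.I *
      (((N / (2 * Real.pi) : ℝ) : ℂ) * (-Complex.I * Complex.log t)) / N = Complex.log t
    have hN' : (N : ℂ) ≠ 0 := Nat.cast_ne_zero.2 (NeZero.ne N)
    have hpi' : (Real.pi : ℂ) ≠ 0 := by exact_mod_cast Real.pi_ne_zero
    push_cast
    field_simp
    ring_nf
    rw [Complex.I_sq]
    ring
  unfold tOf
  rw [harg, Complex.exp_log h0]

/-- A convergent Laurent expansion in `t` which sums to `0` on all of `ℍ` (i.e. on the punctured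
unit disc) is the zero series. -/
theorem hasTExp_zero_unique {N : ℕ} [NeZero N] {G : LaurentSeries ℂ}
    (h : ∀ z : ℍ, HasSum (fun n : ℤ => G.coeff n * tOf N z ^ n) 0) : G = 0 := by
  rw [← HahnSeries.coeff_order_eq_zero]
  have hmain := UniqueAux.constCoeff_eq_zero_of_hasSum_zero
    (fun k : ℕ => G.coeff (G.order + (k : ℤ))) ?_
  · simpa using hmain
  intro t ht0 ht1
  obtain ⟨z, rfl⟩ := exists_tOf_eq N t ht0 ht1
  have hinj : Function.Injective (fun k : ℕ => G.order + (k : ℤ)) := fun a b hab => by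
    simpa using hab
  have hzero : ∀ n : ℤ, n ∉ Set.range (fun k : ℕ => G.order + (k : ℤ)) →
      G.coeff n * tOf N z ^ n = 0 := by
    intro n hn
    have hlt : n < G.order := by
      by_contra hlt
      rw [not_lt] at hlt
      exact hn ⟨(n - G.order).toNat, by
        simp only [Int.toNat_of_nonneg (sub_nonneg.2 hlt)]
        ring⟩
    rw [HahnSeries.coeff_eq_zero_of_lt_order hlt, zero_mul]
  have h1 := (hinj.hasSum_iff hzero).2 (h z)
  have h2 := h1.mul_right (tOf N z ^ (-G.order))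
  rw [zero_mul] at h2
  have hfun : (fun k : ℕ => G.coeff (G.order + (k : ℤ)) * tOf N z ^ k)
      = fun k : ℕ => ((fun n : ℤ => G.coeff n * tOf N z ^ n) ∘ fun k : ℕ => G.order + (k : ℤ)) k
          * tOf N z ^ (-G.order) := by
    funext k
    simp only [Function.comp]
    rw [mul_assoc, ← zpow_add₀ ht0]
    congr 1
    rw [add_neg_cancel_comm, zpow_natCast]
  rw [hfun]
  exact h2

end Fermat.Agent.S24
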